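import Fermat.Agent.KolmogorovSinai.Generator
import Mathlib.Probability.ProductMeasure
import Mathlib.Probability.Distributions.Uniform

/-!
# The entropy of Bernoulli shifts

The zeroth coordinate generates the two-sided shift, and the probability of a word is the product
of the probabilities of its letters.
-/

set_option autoImplicit false

noncomputable section

open MeasureTheory Filter Topology
open FA.ShannonMcMillan (word measurable_word)

namespace FA.KolmogorovSinai

variable {ι : Type*} [MeasurableSpace ι]

/-- The two-sided shift. -/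
def shift (ι : Type*) [MeasurableSpace ι] : (ℤ → ι) ≃ᵐ (ℤ → ι) where
  toFun x i := x (i + 1)
  invFun x i := x (i - 1)
  left_inv x := funext fun i => by simp
  right_inv x := funext fun i => by simp
  measurable_toFun := measurable_pi_iff.2 fun _ => measurable_pi_apply _
  measurable_invFun := measurable_pi_iff.2 fun _ => measurable_pi_apply _

theorem shift_iterate (j : ℕ) (x : ℤ → ι) (i : ℤ) : (shift ι)^[j] x i = x (i + j) := by
  induction j generalizing x with
  | zero => simp
  | succ j ih =>
    rw [Function.iterate_succ_apply, ih]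
    show x (i + j + 1) = _
    push_cast
    rw [add_assoc]

theorem shift_symm_iterate (j : ℕ) (x : ℤ → ι) (i : ℤ) :
    (shift ι).symm^[j] x i = x (i - j) := by
  induction j generalizing x with
  | zero => simp
  | succ j ih =>
    rw [Function.iterate_succ_apply, ih]
    show x (i - j - 1) = _
    push_cast
    rw [sub_sub]

variable (p : Measure ι) [IsProbabilityMeasure p]

theorem measurePreserving_shift :
    MeasurePreserving (shift ι) (Measure.infinitePi fun _ : ℤ => p)
      (Measure.infinitePi fun _ : ℤ => p) := by
  classical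
  refine ⟨(shift ι).measurable, Measure.eq_infinitePi _ fun s t ht => ?_⟩
  rw [Measure.map_apply (shift ι).measurable (.pi s.countable_toSet fun i _ => ht i)]
  have e : (shift ι) ⁻¹' Set.pi s t =
      Set.pi (s.image fun i => i + 1 : Finset ℤ) fun i => t (i - 1) := by
    ext x
    simp only [shift, MeasurableEquiv.coe_mk, Equiv.coe_fn_mk, Set.mem_preimage, Set.mem_pi,
      Finset.coe_image, Set.forall_mem_image, add_sub_cancel_right]
  rw [e, Measure.infinitePi_pi _ fun i _ => ht (i - 1),
    Finset.prod_image (fun a _ b _ h => add_right_cancel h)]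
  simp

variable [Fintype ι] [MeasurableSingletonClass ι]

theorem measureReal_word (n : ℕ) (w : Fin n → ι) :
    (Measure.infinitePi fun _ : ℤ => p).real
      (word (shift ι) (fun x : ℤ → ι => x 0) n ⁻¹' {w}) = ∏ j, p.real {w j} := by
  classical
  have e : word (shift ι) (fun x : ℤ → ι => x 0) n ⁻¹' {w} =
      Set.pi (Finset.univ.image fun j : Fin n => ((j : ℕ) : ℤ) : Finset ℤ)
        fun i => {v | ∀ j : Fin n, ((j : ℕ) : ℤ) = i → v = w j} := by
    ext x
    simp only [Set.mem_preimage, Set.mem_singleton_iff, funext_iff, word, shift_iterate, zero_add,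
      Set.mem_pi, Finset.coe_image, Finset.coe_univ, Set.image_univ, Set.mem_range,
      Set.mem_ofPred_eq, forall_exists_index, forall_apply_eq_imp_iff]
    exact ⟨fun h k j hj => by rw [← hj]; exact h j, fun h j => h j j rfl⟩
  rw [e, measureReal_def, Measure.infinitePi_pi _ fun i _ => Set.toFinite _ |>.measurableSet,
    Finset.prod_image (g := fun j : Fin n => ((j : ℕ) : ℤ))
      (fun a _ b _ h => Fin.ext (Nat.cast_injective h)), ENNReal.toReal_prod]
  refine Finset.prod_congr rfl fun j _ => ?_
  rw [measureReal_def]
  congr 2
  ext v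
  simp only [Set.mem_ofPred_eq, Set.mem_singleton_iff]
  exact ⟨fun h => h j rfl, fun h k hk => by rw [h, Fin.ext (Nat.cast_injective hk)]⟩

theorem sum_prod_negMulLog : ∀ n : ℕ,
    ∑ w : Fin n → ι, Real.negMulLog (∏ j, p.real {w j}) =
      n * ∑ a, Real.negMulLog (p.real {a})
  | 0 => by simp
  | n + 1 => by
    have h1 : ∑ a, p.real {a} = 1 := by simp
    have h2 : ∑ w : Fin n → ι, ∏ j, p.real {w j} = 1 := by
      rw [← Fintype.prod_sum fun (_ : Fin n) a => p.real {a}, h1, Finset.prod_const_one]
    rw [← (Fin.consEquiv fun _ => ι).sum_comp, Fintype.sum_prod_type]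
    simp only [Fin.consEquiv, Equiv.coe_fn_mk, Fin.prod_univ_succ, Fin.cons_zero, Fin.cons_succ,
      Real.negMulLog_mul, Finset.sum_add_distrib, ← Finset.sum_mul, ← Finset.mul_sum,
      sum_prod_negMulLog n, h1, h2]
    push_cast
    ring

/-- **The entropy of a Bernoulli shift.** -/
theorem ksEntropy_bernoulli :
    ksEntropy (Measure.infinitePi fun _ : ℤ => p) (shift ι) =
      ENNReal.ofReal (∑ a, Real.negMulLog (p.real {a})) := by
  have hP : Measurable fun x : ℤ → ι => x 0 := measurable_pi_apply 0
  have hgen : (⨆ n, MeasurableSpace.comap ((fun x : ℤ → ι => x 0) ∘ (shift ι)^[n]) inferInstance) ⊔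
      (⨆ n, MeasurableSpace.comap ((fun x : ℤ → ι => x 0) ∘ (shift ι).symm^[n]) inferInstance) =
      MeasurableSpace.pi := by
    refine le_antisymm (sup_le (iSup_le fun n => ?_) (iSup_le fun n => ?_)) (iSup_le fun i => ?_)
    · exact (hP.comp ((shift ι).measurable.iterate n)).comap_le
    · exact (hP.comp ((shift ι).symm.measurable.iterate n)).comap_le
    obtain ⟨j, rfl | rfl⟩ := i.eq_nat_or_neg
    · refine le_sup_of_le_left (le_iSup_of_le j (le_of_eq ?_))
      congr 1
      funext x
      simp only [Function.comp_apply, shift_iterate]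
      exact congrArg x (zero_add _).symm
    · refine le_sup_of_le_right (le_iSup_of_le j (le_of_eq ?_))
      congr 1
      funext x
      simp only [Function.comp_apply, shift_symm_iterate]
      exact congrArg x (zero_sub _).symm
  rw [ksEntropy_eq_rate_symm (shift ι) (measurePreserving_shift p) hP hgen]
  congr 1
  refine tendsto_nhds_unique (tendsto_rate (measurePreserving_shift p) hP) ?_
  refine tendsto_const_nhds.congr' ((eventually_ge_atTop 1).mono fun n hn => ?_)
  unfold entropy
  dsimp only
  rw [Finset.sum_congr rfl fun w _ => congrArg Real.negMulLog (measureReal_word p n w),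
    sum_prod_negMulLog, mul_div_cancel_left₀ _ (Nat.cast_ne_zero.2 (by omega))]

/-- A uniform Bernoulli shift has entropy the logarithm of the number of letters. -/
theorem ksEntropy_bernoulli_uniform [Nonempty ι] :
    ksEntropy (Measure.infinitePi fun _ : ℤ => (PMF.uniformOfFintype ι).toMeasure) (shift ι) =
      ENNReal.ofReal (Real.log (Fintype.card ι)) := by
  rw [ksEntropy_bernoulli]
  congr 1
  have h : ∀ a, (PMF.uniformOfFintype ι).toMeasure.real {a} = (Fintype.card ι : ℝ)⁻¹ := fun a => by
    simp [measureReal_def, PMF.toMeasure_apply_singleton _ a (measurableSet_singleton a)]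
  simp only [h, Finset.sum_const, Finset.card_univ, nsmul_eq_mul, Real.negMulLog, Real.log_inv,
    neg_mul, mul_neg, neg_neg]
  rw [← mul_assoc, mul_inv_cancel₀ (Nat.cast_ne_zero.2 Fintype.card_ne_zero), one_mul]

end FA.KolmogorovSinai

end
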