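import Fermat.Agent.KolmogorovSinai.Entropy
import Mathlib.MeasureTheory.Function.FactorsThrough
import Mathlib.MeasureTheory.Integral.Indicator
import Mathlib.Probability.Martingale.Convergence

/-!
# The theorem of Kolmogorov and Sinai

If the windows of a labelling generate, every finite labelling is a function of a long window up to
a small error, so its rate is at most that of the generator.
-/

set_option autoImplicit false

noncomputable section

open MeasureTheory Filter Topology
open FA.ShannonMcMillan (word measurable_word)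

namespace FA.KolmogorovSinai

variable {α β ι : Type*} {mα : MeasurableSpace α} {μ : Measure α} [IsProbabilityMeasure μ]
  [Fintype β] [MeasurableSpace β] [MeasurableSingletonClass β]
  [Fintype ι] [MeasurableSpace ι] [MeasurableSingletonClass ι]

/-- The entropy of a map, in `[0, ∞]`. -/
def ksEntropy (μ : Measure α) (T : α → α) : ENNReal :=
  ⨆ (k : ℕ) (P : α → Fin k) (_ : Measurable P), ENNReal.ofReal (rate μ T P)

theorem ofReal_rate_le_ksEntropy {T : α → α} (hT : MeasurePreserving T μ μ) {Q : α → β}
    (hQ : Measurable Q) : ENNReal.ofReal (rate μ T Q) ≤ ksEntropy μ T := by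
  set e := Fintype.equivFin β
  have hQ' : Measurable (e ∘ Q) := (measurable_of_finite _).comp hQ
  refine le_iSup₂_of_le (Fintype.card β) (e ∘ Q) (le_iSup_of_le hQ' (ENNReal.ofReal_le_ofReal ?_))
  have h := rate_window_le hT hQ' 1 fun w => e.symm (w 0)
  have he : ((fun w : Fin 1 → Fin (Fintype.card β) => e.symm (w 0)) ∘ word T (e ∘ Q) 1) = Q := by
    funext x
    simp [word]
  rwa [he] at h

/-- **Approximation by windows.** -/
theorem exists_approx {l : ℕ → ℕ} {W : ∀ m, α → (Fin (l m) → ι)} (hW : ∀ m, Measurable (W m))
    (hmono : Monotone fun m => MeasurableSpace.comap (W m) inferInstance)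
    (hgen : ⨆ m, MeasurableSpace.comap (W m) inferInstance = mα) {Q : α → β} (hQ : Measurable Q) :
    ∃ f : ∀ m, (Fin (l m) → ι) → β,
      Tendsto (fun m => μ {x | Q x ≠ f m (W m x)}) atTop (𝓝 0) := by
  classical
  have : Nonempty α := nonempty_of_isProbabilityMeasure μ
  have : Nonempty β := ⟨Q (Classical.arbitrary α)⟩
  let ℱ : Filtration ℕ mα :=
    ⟨fun m => MeasurableSpace.comap (W m) inferInstance, hmono, fun m => (hW m).comap_le⟩
  set ind : β → α → ℝ := fun b => (Q ⁻¹' {b}).indicator fun _ => 1
  have hind : ∀ b, StronglyMeasurable[⨆ m, ℱ m] (ind b) := fun b => by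
    show StronglyMeasurable[⨆ m, MeasurableSpace.comap (W m) inferInstance] _
    rw [hgen]
    exact stronglyMeasurable_const.indicator (hQ (measurableSet_singleton b))
  have hex : ∀ m b, ∃ h : (Fin (l m) → ι) → ℝ, (μ[ind b | ℱ m]) = h ∘ W m := fun m b => by
    obtain ⟨h, -, hh⟩ := (show StronglyMeasurable[MeasurableSpace.comap (W m) inferInstance]
      (μ[ind b | ℱ m]) from stronglyMeasurable_condExp).exists_eq_measurable_comp
    exact ⟨h, hh⟩
  choose h hh using hex
  let f : ∀ m, (Fin (l m) → ι) → β := fun m w =>
    if hb : ∃ b, 1 / 2 < h m b w then hb.choose else Classical.arbitrary β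
  refine ⟨f, ?_⟩
  have hlim : ∀ᵐ x ∂μ, ∀ b, Tendsto (fun m => h m b (W m x)) atTop (𝓝 (ind b x)) := by
    refine ae_all_iff.2 fun b => ?_
    filter_upwards [((integrable_const (1 : ℝ)).indicator (hQ (measurableSet_singleton b)) :
      Integrable (ind b) μ).tendsto_ae_condExp (hind b)] with x hx
    exact hx.congr fun m => congrFun (hh m b) x
  have hset : ∀ m, MeasurableSet {x | Q x ≠ f m (W m x)} := fun m =>
    (measurableSet_eq_fun hQ ((measurable_of_finite (f m)).comp (hW m))).compl
  have := tendsto_measure_of_ae_tendsto_indicator_of_isFiniteMeasure (μ := μ) atTop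
    MeasurableSet.empty hset (by
      filter_upwards [hlim] with x hx
      have hev : ∀ᶠ m in atTop, ∀ b, 1 / 2 < h m b (W m x) ↔ b = Q x := eventually_all.2 fun b => by
        by_cases hb : b = Q x
        · filter_upwards [(hx b).eventually_const_lt (u := 1 / 2) (by simp [ind, hb]; norm_num)]
            with m hm
          exact iff_of_true hm hb
        · filter_upwards [(hx b).eventually_lt_const (u := 1 / 2) (by
            simp [ind, Ne.symm hb])] with m hm
          exact iff_of_false (not_lt.2 hm.le) hb
      filter_upwards [hev] with m hm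
      have hex : ∃ b, 1 / 2 < h m b (W m x) := ⟨Q x, (hm _).2 rfl⟩
      simp only [Set.mem_empty_iff_false, iff_false, not_not, f, dif_pos hex]
      exact ((hm _).1 hex.choose_spec).symm)
  simpa using this

/-- A labelling approximated by windows of `P` has at most the rate of `P`. -/
theorem rate_le_of_approx {T : α → α} (hT : MeasurePreserving T μ μ) {P : α → ι}
    (hP : Measurable P) {Q : α → β} (hQ : Measurable Q) (k l : ℕ → ℕ)
    (f : ∀ m, (Fin (l m) → ι) → β)
    (h : Tendsto (fun m => μ {x | Q (T^[k m] x) ≠ f m (word T P (l m) x)}) atTop (𝓝 0)) :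
    rate μ T Q ≤ rate μ T P := by
  classical
  have : Nonempty α := nonempty_of_isProbabilityMeasure μ
  set b₀ := Q (Classical.arbitrary α)
  set bad : ℕ → Set α := fun m => {x | Q (T^[k m] x) ≠ f m (word T P (l m) x)}
  set D : ℕ → α → β × Bool := fun m x => if x ∈ bad m then (Q (T^[k m] x), true) else (b₀, false)
  have hQk : ∀ m, Measurable (Q ∘ T^[k m]) := fun m => hQ.comp (hT.measurable.iterate _)
  have hbad : ∀ m, MeasurableSet (bad m) := fun m =>
    (measurableSet_eq_fun (hQk m)
      ((measurable_of_finite (f m)).comp (measurable_word hT.measurable hP _))).compl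
  have hD : ∀ m, Measurable (D m) := fun m =>
    Measurable.ite (hbad m) ((hQk m).prodMk measurable_const) measurable_const
  have hlow : ∀ m, rate μ T Q ≤ rate μ T P + entropy μ (D m) := fun m => by
    let g : β → β × Bool → β := fun q d => cond d.2 d.1 q
    have e : (Q ∘ T^[k m]) = fun x => g ((f m ∘ word T P (l m)) x) (D m x) := by
      funext x
      by_cases hx : x ∈ bad m
      · simp [D, g, hx]
      · simp only [D, g, if_neg hx, cond_false]
        exact not_not.1 hx
    have h1 : rate μ T (fun x => g ((f m ∘ word T P (l m)) x) (D m x)) ≤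
        rate μ T (f m ∘ word T P (l m)) + entropy μ (D m) :=
      rate_le_add hT ((measurable_of_finite (f m)).comp (measurable_word hT.measurable hP _))
        (hD m) g
    rw [← rate_comp_iterate hT hQ (k m), e]
    exact h1.trans (add_le_add (rate_window_le hT hP _ _) le_rfl)
  have h' : Tendsto (fun m => μ.real (bad m)) atTop (𝓝 0) :=
    (ENNReal.tendsto_toReal ENNReal.zero_ne_top).comp h
  have hent : Tendsto (fun m => entropy μ (D m)) atTop (𝓝 0) := by
    have h0 : ∀ b : β × Bool, Tendsto (fun m => Real.negMulLog (μ.real (D m ⁻¹' {b}))) atTop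
        (𝓝 0) := fun b => by
      obtain ⟨b, t⟩ := b
      cases t
      · by_cases hb : b = b₀
        · have he : ∀ m, D m ⁻¹' {(b, false)} = (bad m)ᶜ := fun m => by
            ext x
            by_cases hx : x ∈ bad m <;> simp [D, hx, hb]
          simp only [he, probReal_compl_eq_one_sub (hbad _)]
          simpa [Function.comp_def] using
            (Real.continuous_negMulLog.tendsto (1 - 0)).comp (h'.const_sub 1)
        · have he : ∀ m, D m ⁻¹' {(b, false)} = ∅ := fun m => by
            ext x
            by_cases hx : x ∈ bad m <;> simp [D, hx, Ne.symm hb]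
          simp [he]
      · refine Tendsto.comp (g := Real.negMulLog) (y := 𝓝 0) ?_ (squeeze_zero
          (fun m => measureReal_nonneg) (fun m => measureReal_mono fun x hx => ?_) h')
        · simpa using Real.continuous_negMulLog.tendsto 0
        · by_contra hn
          simp [D, hn] at hx
    unfold entropy
    simpa using tendsto_finsetSum Finset.univ fun b _ => h0 b
  exact ge_of_tendsto' (by simpa using hent.const_add (rate μ T P)) hlow

/-- **The generator theorem**, one-sided. -/
theorem ksEntropy_eq_rate {T : α → α} (hT : MeasurePreserving T μ μ) {P : α → ι}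
    (hP : Measurable P)
    (hgen : ⨆ n, MeasurableSpace.comap (P ∘ T^[n]) inferInstance = mα) :
    ksEntropy μ T = ENNReal.ofReal (rate μ T P) := by
  refine le_antisymm (iSup₂_le fun k Q => iSup_le fun hQ => ENNReal.ofReal_le_ofReal ?_)
    (ofReal_rate_le_ksEntropy hT hP)
  have hw := measurable_word (P := P) hT.measurable hP
  have hmono : Monotone fun m => MeasurableSpace.comap (word T P m) inferInstance :=
    fun m n hmn => by
      show MeasurableSpace.comap ((fun w j => w (Fin.castLE hmn j)) ∘ word T P n) _ ≤ _
      rw [← MeasurableSpace.comap_comp]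
      exact MeasurableSpace.comap_mono (measurable_of_finite _).comap_le
  have hgen' : ⨆ m, MeasurableSpace.comap (word T P m) inferInstance = mα := by
    refine le_antisymm (iSup_le fun m => (hw m).comap_le) (hgen.symm.le.trans ?_)
    refine iSup_le fun n => le_iSup_of_le (n + 1) ?_
    show MeasurableSpace.comap
      ((fun w : Fin (n + 1) → ι => w (Fin.last n)) ∘ word T P (n + 1)) _ ≤ _
    rw [← MeasurableSpace.comap_comp]
    exact MeasurableSpace.comap_mono (measurable_of_finite _).comap_le
  obtain ⟨f, hf⟩ := exists_approx (μ := μ) hw hmono hgen' hQ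
  exact rate_le_of_approx hT hP hQ (fun _ => 0) (fun m => m) f hf

/-- **The generator theorem**, two-sided. -/
theorem ksEntropy_eq_rate_symm (T : α ≃ᵐ α) (hT : MeasurePreserving T μ μ) {P : α → ι}
    (hP : Measurable P)
    (hgen : (⨆ n, MeasurableSpace.comap (P ∘ T^[n]) inferInstance) ⊔
      (⨆ n, MeasurableSpace.comap (P ∘ T.symm^[n]) inferInstance) = mα) :
    ksEntropy μ T = ENNReal.ofReal (rate μ T P) := by
  refine le_antisymm (iSup₂_le fun k Q => iSup_le fun hQ => ENNReal.ofReal_le_ofReal ?_)
    (ofReal_rate_le_ksEntropy hT hP)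
  have hinv : ∀ m, Function.LeftInverse T^[m] T.symm^[m] := fun m =>
    Function.LeftInverse.iterate T.apply_symm_apply m
  have hinv' : ∀ m, Function.LeftInverse T.symm^[m] T^[m] := fun m =>
    Function.LeftInverse.iterate T.symm_apply_apply m
  set W : ∀ m : ℕ, α → (Fin (2 * m + 1) → ι) := fun m => word T P (2 * m + 1) ∘ T.symm^[m]
  have hW : ∀ m, Measurable (W m) := fun m =>
    (measurable_word hT.measurable hP _).comp (T.symm.measurable.iterate m)
  have hshift : ∀ m d j x, T^[j + d] (T.symm^[m + d] x) = T^[j] (T.symm^[m] x) := fun m d j x => by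
    rw [Function.iterate_add_apply, Nat.add_comm m d, Function.iterate_add_apply T.symm d m,
      hinv d]
  have hmono : Monotone fun m => MeasurableSpace.comap (W m) inferInstance := fun m n hmn => by
    obtain ⟨d, rfl⟩ := Nat.exists_eq_add_of_le hmn
    have e : W m = (fun (w : Fin (2 * (m + d) + 1) → ι) (j : Fin (2 * m + 1)) =>
        w ⟨j + d, by omega⟩) ∘ W (m + d) := by
      funext x j
      simp only [W, word, Function.comp_apply, hshift]
    show MeasurableSpace.comap (W m) _ ≤ _
    rw [e, ← MeasurableSpace.comap_comp]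
    exact MeasurableSpace.comap_mono (measurable_of_finite _).comap_le
  have hgen' : ⨆ m, MeasurableSpace.comap (W m) inferInstance = mα := by
    refine le_antisymm (iSup_le fun m => (hW m).comap_le) (hgen.symm.le.trans ?_)
    refine sup_le (iSup_le fun n => le_iSup_of_le n ?_) (iSup_le fun n => le_iSup_of_le n ?_)
    · have e : P ∘ T^[n] =
          (fun w : Fin (2 * n + 1) → ι => w ⟨n + n, by omega⟩) ∘ W n := by
        funext x
        simp only [W, word, Function.comp_apply]
        rw [show T^[n + n] (T.symm^[n] x) = T^[n] x by rw [Function.iterate_add_apply, hinv n]]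
      rw [e, ← MeasurableSpace.comap_comp]
      exact MeasurableSpace.comap_mono (measurable_of_finite _).comap_le
    · have e : P ∘ T.symm^[n] = (fun w : Fin (2 * n + 1) → ι => w 0) ∘ W n := by
        funext x
        simp [W, word]
      rw [e, ← MeasurableSpace.comap_comp]
      exact MeasurableSpace.comap_mono (measurable_of_finite _).comap_le
  obtain ⟨f, hf⟩ := exists_approx (μ := μ) hW hmono hgen' hQ
  refine rate_le_of_approx hT hP hQ (fun m => m) (fun m => 2 * m + 1) f (hf.congr fun m => ?_)
  rw [← (hT.iterate m).measure_preimage (show MeasurableSet {x | Q x ≠ f m (W m x)} from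
    (measurableSet_eq_fun hQ ((measurable_of_finite (f m)).comp (hW m))).compl).nullMeasurableSet]
  refine congrArg μ (Set.ext fun x => ?_)
  simp [W, hinv' m x]

/-- **A factor has at most the entropy.** -/
theorem ksEntropy_factor_le {α' : Type*} {mα' : MeasurableSpace α'} {ν : Measure α'}
    [IsProbabilityMeasure ν] {T : α → α} {S : α' → α'} {Φ : α → α'}
    (hT : MeasurePreserving T μ μ) (hΦ : MeasurePreserving Φ μ ν) (hS : MeasurePreserving S ν ν)
    (hcomm : Φ ∘ T =ᵐ[μ] S ∘ Φ) : ksEntropy ν S ≤ ksEntropy μ T := by
  refine iSup₂_le fun k P => iSup_le fun hP => ?_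
  refine le_trans (le_of_eq (congrArg ENNReal.ofReal ?_))
    (ofReal_rate_le_ksEntropy hT (hP.comp hΦ.measurable))
  have hiter : ∀ j : ℕ, Φ ∘ T^[j] =ᵐ[μ] S^[j] ∘ Φ := fun j => by
    induction j with
    | zero => exact EventuallyEq.rfl
    | succ j ih =>
      rw [Function.iterate_succ', Function.iterate_succ']
      have h1 : (Φ ∘ T) ∘ T^[j] =ᵐ[μ] (S ∘ Φ) ∘ T^[j] :=
        (hT.iterate j).quasiMeasurePreserving.ae_eq_comp hcomm
      exact h1.trans (ih.fun_comp S)
  have hword : ∀ n, word T (P ∘ Φ) n =ᵐ[μ] word S P n ∘ Φ := fun n => by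
    filter_upwards [ae_all_iff.2 hiter] with x hx
    exact funext fun j => congrArg P (hx j)
  unfold rate
  simp only [entropy_congr (hword _), entropy_map hΦ (measurable_word hS.measurable hP _)]

end FA.KolmogorovSinai

end
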