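import Fermat.Agent.ShannonMcMillan.Limit

/-!
# The entropy of a finite-valued function and the entropy rate

Coarsening lowers the entropy, a pair has at most the sum of the entropies, and a small error
changes the rate by little.
-/

set_option autoImplicit false

noncomputable section

open MeasureTheory Filter Topology Real
open FA.ShannonMcMillan (word measurable_word)

namespace FA.KolmogorovSinai

variable {α β γ ι : Type*} {mα : MeasurableSpace α} {μ : Measure α} [IsProbabilityMeasure μ]

/-- The entropy of a function with finitely many values. -/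
def entropy (μ : Measure α) [Fintype β] (X : α → β) : ℝ :=
  ∑ b, negMulLog (μ.real (X ⁻¹' {b}))

/-- The entropy rate of a labelling under a map. -/
def rate (μ : Measure α) [Fintype ι] (T : α → α) (P : α → ι) : ℝ :=
  limUnder atTop fun n : ℕ => entropy μ (word T P n) / n

variable [Fintype β] [MeasurableSpace β] [MeasurableSingletonClass β]
  [Fintype γ] [MeasurableSpace γ] [MeasurableSingletonClass γ]

omit [MeasurableSingletonClass β] [MeasurableSpace β] in
theorem entropy_nonneg (X : α → β) : 0 ≤ entropy μ X :=
  Finset.sum_nonneg fun _ _ => negMulLog_nonneg measureReal_nonneg measureReal_le_one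

omit [MeasurableSpace γ] [MeasurableSingletonClass γ] in
/-- **Coarsening lowers the entropy.** -/
theorem entropy_comp_le {X : α → β} (hX : Measurable X) (f : β → γ) :
    entropy μ (f ∘ X) ≤ entropy μ X := by
  classical
  unfold entropy
  rw [← Finset.sum_fiberwise Finset.univ f fun b => negMulLog (μ.real (X ⁻¹' {b}))]
  refine Finset.sum_le_sum fun c _ => ?_
  have e : (f ∘ X) ⁻¹' {c} = X ⁻¹' (Finset.univ.filter fun b => f b = c : Finset β) := by
    ext x
    simp
  rw [e, ← sum_measureReal_preimage_singleton _ fun b _ => hX (measurableSet_singleton b),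
    negMulLog, neg_mul, Finset.sum_mul, ← Finset.sum_neg_distrib]
  refine Finset.sum_le_sum fun b hb => ?_
  rw [negMulLog, neg_mul, neg_le_neg_iff]
  rcases (measureReal_nonneg (μ := μ) (s := X ⁻¹' {b})).eq_or_lt with h | h
  · rw [← h, zero_mul, zero_mul]
  exact mul_le_mul_of_nonneg_left (log_le_log h (Finset.single_le_sum
    (f := fun b => μ.real (X ⁻¹' {b})) (fun _ _ => measureReal_nonneg) hb)) h.le

theorem sum_preimage_eq_one {X : α → β} (hX : Measurable X) :
    ∑ b, μ.real (X ⁻¹' {b}) = 1 := by
  rw [sum_measureReal_preimage_singleton _ fun b _ => hX (measurableSet_singleton b),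
    Finset.coe_univ, Set.preimage_univ, probReal_univ]

/-- **Subadditivity.** -/
theorem entropy_pair_le {X : α → β} {Y : α → γ} (hX : Measurable X) (hY : Measurable Y) :
    entropy μ (fun x => (X x, Y x)) ≤ entropy μ X + entropy μ Y := by
  classical
  set p : β → γ → ℝ := fun a b => μ.real (X ⁻¹' {a} ∩ Y ⁻¹' {b})
  have hq : ∀ a, μ.real (X ⁻¹' {a}) = ∑ b, p a b := fun a => by
    have h := sum_measureReal_preimage_singleton (μ := μ.restrict (X ⁻¹' {a})) Finset.univ
      fun b (_ : b ∈ Finset.univ) => hY (measurableSet_singleton b)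
    simp only [measureReal_restrict_apply (hY (MeasurableSet.of_discrete)), Finset.coe_univ,
      Set.preimage_univ, Set.univ_inter, MeasurableSet.univ, measureReal_restrict_apply] at h
    rw [← h]
    exact Finset.sum_congr rfl fun b _ => by rw [Set.inter_comm]
  have hr : ∀ b, μ.real (Y ⁻¹' {b}) = ∑ a, p a b := fun b => by
    have h := sum_measureReal_preimage_singleton (μ := μ.restrict (Y ⁻¹' {b})) Finset.univ
      fun a (_ : a ∈ Finset.univ) => hX (measurableSet_singleton a)
    simp only [measureReal_restrict_apply (hX (MeasurableSet.of_discrete)), Finset.coe_univ,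
      Set.preimage_univ, Set.univ_inter, MeasurableSet.univ, measureReal_restrict_apply] at h
    exact h.symm
  set q : β → ℝ := fun a => μ.real (X ⁻¹' {a}) with hqdef
  set r : γ → ℝ := fun b => μ.real (Y ⁻¹' {b}) with hrdef
  have hpair : entropy μ (fun x => (X x, Y x)) = ∑ a, ∑ b, negMulLog (p a b) := by
    rw [entropy, Fintype.sum_prod_type]
    refine Finset.sum_congr rfl fun a _ => Finset.sum_congr rfl fun b _ => ?_
    congr 2
    ext x
    simp
  have hsum : entropy μ X + entropy μ Y = ∑ a, ∑ b, -p a b * (log (q a) + log (r b)) := by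
    simp only [mul_add, Finset.sum_add_distrib]
    congr 1
    · refine Finset.sum_congr rfl fun a _ => ?_
      rw [← Finset.sum_mul, Finset.sum_neg_distrib, ← hq]
      rfl
    · rw [Finset.sum_comm]
      refine Finset.sum_congr rfl fun b _ => ?_
      rw [← Finset.sum_mul, Finset.sum_neg_distrib, ← hr]
      rfl
  have key : ∀ a b, negMulLog (p a b) ≤ -p a b * (log (q a) + log (r b)) + (q a * r b - p a b) :=
    fun a b => by
    rcases (measureReal_nonneg (μ := μ) (s := X ⁻¹' {a} ∩ Y ⁻¹' {b})).eq_or_lt with h | h
    · simp only [show p a b = 0 from h.symm, negMulLog_zero, neg_zero, zero_mul, zero_add, sub_zero]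
      exact mul_nonneg measureReal_nonneg measureReal_nonneg
    have ha : 0 < q a := h.trans_le (measureReal_mono Set.inter_subset_left)
    have hb : 0 < r b := h.trans_le (measureReal_mono Set.inter_subset_right)
    have h1 := log_le_sub_one_of_pos (div_pos (mul_pos ha hb) h)
    rw [log_div (mul_pos ha hb).ne' h.ne', log_mul ha.ne' hb.ne'] at h1
    have h2 := mul_le_mul_of_nonneg_left h1 h.le
    rw [mul_sub_one, mul_div_cancel₀ _ h.ne'] at h2
    simp only [p, negMulLog] at h2 ⊢
    linarith
  rw [hpair, hsum]
  refine (Finset.sum_le_sum fun a _ => Finset.sum_le_sum fun b _ => key a b).trans (le_of_eq ?_)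
  simp only [Finset.sum_add_distrib, Finset.sum_sub_distrib, ← Finset.sum_mul_sum, ← hq]
  rw [sum_preimage_eq_one hX, sum_preimage_eq_one hY]
  ring

omit [MeasurableSingletonClass β] [MeasurableSpace β] [IsProbabilityMeasure μ] in
theorem entropy_congr {X Y : α → β} (h : X =ᵐ[μ] Y) : entropy μ X = entropy μ Y :=
  Finset.sum_congr rfl fun b _ => by
    rw [measureReal_congr (h.preimage {b})]

omit [IsProbabilityMeasure μ] in
theorem entropy_map {α' : Type*} {mα' : MeasurableSpace α'} {ν : Measure α'} {Φ : α → α'}
    (hΦ : MeasurePreserving Φ μ ν) {X : α' → β} (hX : Measurable X) :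
    entropy μ (X ∘ Φ) = entropy ν X :=
  Finset.sum_congr rfl fun b _ => by
    rw [Set.preimage_comp, measureReal_def,
      hΦ.measure_preimage (hX (measurableSet_singleton b)).nullMeasurableSet, measureReal_def]

variable [Fintype ι] [MeasurableSpace ι] [MeasurableSingletonClass ι] {T : α → α} {P : α → ι}

theorem tendsto_rate (hT : MeasurePreserving T μ μ) (hP : Measurable P) :
    Tendsto (fun n : ℕ => entropy μ (word T P n) / n) atTop (𝓝 (rate μ T P)) := by
  obtain ⟨L, -, -, -, -, hmean, -⟩ := FA.ShannonMcMillan.exists_entropy_limit hT hP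
  simp only [FA.ShannonMcMillan.integral_info hT.measurable hP] at hmean
  exact tendsto_nhds_limUnder ⟨_, hmean⟩

theorem rate_nonneg (hT : MeasurePreserving T μ μ) (hP : Measurable P) : 0 ≤ rate μ T P :=
  ge_of_tendsto' (tendsto_rate hT hP) fun n => div_nonneg (entropy_nonneg _) n.cast_nonneg

omit [Fintype ι] [MeasurableSpace ι] [MeasurableSingletonClass ι] in
theorem word_comp_iterate (T : α → α) (P : α → ι) (k n : ℕ) :
    word T (P ∘ T^[k]) n = word T P n ∘ T^[k] := by
  funext x j
  simp only [word, Function.comp_apply, ← Function.iterate_add_apply, Nat.add_comm k]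

theorem entropy_word_add_le (hT : MeasurePreserving T μ μ) (hP : Measurable P) (n m : ℕ) :
    entropy μ (word T P (n + m)) ≤ entropy μ (word T P n) + entropy μ (word T P m) := by
  have hw := measurable_word (P := P) hT.measurable hP
  rw [← entropy_map (hT.iterate n) (hw m)]
  refine le_trans (le_of_eq_of_le (congrArg (entropy μ) ?_)
    (entropy_comp_le ((hw n).prodMk ((hw m).comp (hT.measurable.iterate n)))
      fun p : (Fin n → ι) × (Fin m → ι) => Fin.append p.1 p.2))
    (entropy_pair_le (hw n) ((hw m).comp (hT.measurable.iterate n)))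
  funext x j
  refine Fin.addCases (fun i => ?_) (fun i => ?_) j
  · simp [word, Fin.append_left]
  · simp [word, Fin.append_right, ← Function.iterate_add_apply, Nat.add_comm]

theorem entropy_word_le_mul (hT : MeasurePreserving T μ μ) (hP : Measurable P) :
    ∀ n : ℕ, entropy μ (word T P n) ≤ n * entropy μ P
  | 0 => by
    have h : ∀ w, word T P 0 ⁻¹' {w} = Set.univ := fun w =>
      Set.eq_univ_of_forall fun x => Subsingleton.elim _ _
    simp [entropy, h]
  | n + 1 => by
    have h1 : entropy μ (word T P 1) ≤ entropy μ P :=
      le_of_eq_of_le (congrArg (entropy μ) (funext fun x => funext fun j => by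
        simp [word, Fin.fin_one_eq_zero j])) (entropy_comp_le hP fun a (_ : Fin 1) => a)
    have h2 := entropy_word_le_mul hT hP n
    push_cast
    linarith [entropy_word_add_le hT hP n 1]

omit [IsProbabilityMeasure μ] in
/-- The rate does not see a shift. -/
theorem rate_comp_iterate (hT : MeasurePreserving T μ μ) (hP : Measurable P) (k : ℕ) :
    rate μ T (P ∘ T^[k]) = rate μ T P := by
  unfold rate
  simp only [word_comp_iterate, entropy_map (hT.iterate k) (measurable_word hT.measurable hP _)]

/-- A function of a window has at most the rate of the labelling. -/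
theorem rate_window_le (hT : MeasurePreserving T μ μ) (hP : Measurable P) (m : ℕ)
    (f : (Fin m → ι) → β) : rate μ T (f ∘ word T P m) ≤ rate μ T P := by
  have hQ : Measurable (f ∘ word T P m) :=
    (measurable_of_finite f).comp (measurable_word hT.measurable hP m)
  have hlim : Tendsto (fun n : ℕ => (entropy μ (word T P n) + entropy μ (word T P m)) / n) atTop
      (𝓝 (rate μ T P)) := by
    simpa [add_div] using (tendsto_rate hT hP).add
      (tendsto_const_nhds.div_atTop tendsto_natCast_atTop_atTop)
  refine le_of_tendsto_of_tendsto' (tendsto_rate hT hQ) hlim fun n => ?_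
  refine div_le_div_of_nonneg_right (le_trans ?_ (entropy_word_add_le hT hP n m)) n.cast_nonneg
  refine le_of_eq_of_le (congrArg (entropy μ) ?_) (entropy_comp_le
    (measurable_word hT.measurable hP (n + m))
    fun w (j : Fin n) => f fun i : Fin m => w ⟨i + j, by omega⟩)
  funext x j
  simp [word, Function.iterate_add_apply]
  rfl

/-- **A small error changes the rate by at most its entropy.** -/
theorem rate_le_add {δ : Type*} [Fintype δ] [MeasurableSpace δ] [MeasurableSingletonClass δ]
    (hT : MeasurePreserving T μ μ) {Q' : α → β} {D : α → δ} (hQ : Measurable Q')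
    (hD : Measurable D) (g : β → δ → γ) :
    rate μ T (fun x => g (Q' x) (D x)) ≤ rate μ T Q' + entropy μ D := by
  have hg : Measurable fun x => g (Q' x) (D x) :=
    (measurable_of_finite fun p : β × δ => g p.1 p.2).comp (hQ.prodMk hD)
  refine le_of_tendsto_of_tendsto (tendsto_rate hT hg)
    ((tendsto_rate hT hQ).add_const _) ((eventually_ge_atTop 1).mono fun n hn => ?_)
  have hn0 : (0 : ℝ) < n := Nat.cast_pos.2 hn
  dsimp only
  rw [div_add' _ _ _ hn0.ne']
  refine div_le_div_of_nonneg_right ?_ hn0.le
  refine (le_of_eq_of_le (congrArg (entropy μ) (show word T (fun x => g (Q' x) (D x)) n =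
    (fun p j => g (p.1 j) (p.2 j)) ∘ fun x => (word T Q' n x, word T D n x) from rfl))
    (entropy_comp_le ((measurable_word hT.measurable hQ n).prodMk
      (measurable_word hT.measurable hD n)) _)).trans ?_
  refine (entropy_pair_le (measurable_word hT.measurable hQ n)
    (measurable_word hT.measurable hD n)).trans ?_
  rw [mul_comm (entropy μ D)]
  linarith [entropy_word_le_mul hT hD n]

end FA.KolmogorovSinai

end
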